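/-
GATE-B / S43, (P3) seam B4-TWIST → B3 → T_Q, **the composite AT `Plug.tw`** (helper55, HEDGE for
helper74's `PlugTwisted` of board 6490): from a twist action `tw` on the parabolic classes of the
big level (`TwInst.exists_tw_primeData`) with the generator formula `hgen` to

* `exists_TQ_plug` : `twP` on the big level `Plug.bigLevel … (s + k)` (`TwRestrictPlug.exists_twP`,
  ι-characterised, commuting with all diamonds `hD` and symbols), with (LOC)
  (`TwRestrictPlug.locHyp_twP`), and (LOC) for `prodTw O tw₁P twχP`;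
* `tw₁P … twP hD`, `twχP … twP hD` : the NAMED induced actions on `M¹_Q`, `M^χ_Q` of
  `Plug.tw Sy 𝔪 H h s k c hc hc1` (`= TQCompat.tw1`, `twChi`), with
  `tw₁P_fmk : tw₁P t (fmk x) = fmk (twP t x)`, `twχP_fmk` (both `rfl`), `locHyp_prod`;
* `exists_fields … twP hD` : the `TWInput` fields `a₁ a₂ a₁_D a₂_D a_U` (+ `a ∘ chi = tw`, joint
  faithfulness) over `T_Q := ImageRing.TQ O θA (prodTw O tw₁P twχP)`
  (`TQCompat.exists_fields_big` typed on `Plug.tw`).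
-/
import Mathlib
import Fermat.Agent.GE8.P3B.GB.B4.Datum.TwRestrictPlug
import Fermat.Agent.GE8.P3B.StepGen
import Fermat.Agent.GE8.P3B.Ok3W

/- TWIN (helper6 B4 generator; conventions of helper24 / helper86) of `Fermat.Agent.GB.B4.Datum.PlugTwisted` with `p ≠ 3` relaxed to `Ok3A Sy 𝔪 p` / `Ok3W p W` (RISK-5 fix (B), step B4); everything below lives in the wrapper namespace `Fermat.Agent.GE8.P3B`. -/
set_option linter.dupNamespace false
open Fermat Fermat.Agent Fermat.Agent.GB Fermat.Agent.GB.B3 Fermat.Agent.GB.B3.Boundary Fermat.Agent.GB.B3.ChiLevelMulti Fermat.Agent.GB.B3.CycInst Fermat.Agent.GB.B3.EisGamma0 Fermat.Agent.GB.B3.GamH Fermat.Agent.GB.B3.HeckeAct Fermat.Agent.GB.B3.HeckeActH Fermat.Agent.GB.B3.RealLevel Fermat.Agent.GB.B3.TWChars Fermat.Agent.GB.B3.TWLevel Fermat.Agent.GB.B4 Fermat.Agent.GB.B4.Datum Fermat.Agent.GB.B4.Datum.ImageRing Fermat.Agent.GB.B4.Datum.LocGen Fermat.Agent.GB.B4.Datum.TQCompat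 Fermat.Agent.GB.B4.Datum.TQFields Fermat.Agent.GB.B4.Datum.TwRestrict Fermat.Agent.GB.B4.Twist Fermat.Agent.GB.B4.Twist.TwFinal Fermat.Agent.GM Fermat.Agent.GM.B

namespace Fermat.Agent.GE8.P3B

set_option autoImplicit false
set_option linter.unusedSectionVars false
set_option linter.unusedVariables false
set_option linter.style.haveILetI false

noncomputable section

open scoped MatrixGroups
open CongruenceSubgroup ModularCurve.Period

namespace GB.B4.Datum.PlugTwisted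

open GM.B GB.B3 GB.B3.EisGamma0
  GB.B3.CycInst GB.B3.HeckeAct GB.B3.HeckeActH
  GB.B3.StepInst
  GB.B3.RealLevel GB.B3.Tower GB.B3.TWChars
  GB.B3.FinalTW GB.B3.Plug GB.B3.TWLevel
  GB.B3.GamH GB.B3.Boundary GB.B3.PlugPrimary
  GB.B3.ChiLevelMulti GB.B3.Final
  GB.B4.Twist.TwFinal GB.B4.Datum.TwRestrict
  GB.B4.Datum.LocGen GB.B4.Datum.ImageRing
  GB.B4.Datum.TQFields GB.B4.Datum.TQCompat
  GB.B4.Datum.TwRestrictPlug

variable {N p : ℕ} [NeZero N] [hpF : Fact p.Prime] {K : ℕ} {r e N' : ℕ → ℕ}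
variable (Sy : Symbols N)
variable {O : Type} [CommRing O] [IsDomain O] [IsPrincipalIdealRing O] [IsLocalRing O]
  [IsAdicComplete (IsLocalRing.maximalIdeal O) O] [Module.IsTorsionFree ℤ O]
variable (𝔪 : Ideal (Sy.𝕋 O)) [𝔪.IsMaximal]
variable (H : PrimeData N p K r e N') {ϖ : O} {s0 : Sy.ι₁} (h : Plug.Hyp Sy 𝔪 p ϖ s0)
variable (s k : ℕ) (c : Fin s → O) (hc : ∀ v : Fin s, c v ^ p ^ e (s + k - 1 - v) = 1)
  (hc1 : ∀ v, (1 : O) - c v ∈ Ideal.span {ϖ})
  (hSS : haveI := Sy.factℓ s0; StarStar (Theta (Δs p e) H.psi (s + k)) (Sy.hℓN s0))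
variable {A : Type} [CommRing A]
  (tw : A →+* Module.End O ↥(parabolicHoms O (GammaH (Theta (Δs p e) H.psi (s + k))) O))
  (G : Set A) (hG : Subring.closure G = ⊤)
  (ev : Sy.𝕋 O →ₐ[O] IsLocalRing.ResidueField O) (hev : ∀ u ∈ 𝔪, ev u = 0)
  (θA : A →+* IsLocalRing.ResidueField O)
  (hgen : ∀ g ∈ G, ∃ (d : Gamma0 N) (u : Sy.𝕋 O), θA g = ev u ∧
    ∀ v : ↥(parabolicHoms O (GammaH (Theta (Δs p e) H.psi (s + k))) O),
      ((tw g v : ↥(parabolicHoms O (GammaH (Theta (Δs p e) H.psi (s + k))) O)) :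
          Additive (GammaH (Theta (Δs p e) H.psi (s + k))) →+ O)
        = diaH (Theta (Δs p e) H.psi (s + k)) O d (actH Sy O (Theta (Δs p e) H.psi (s + k)) u
            (v : Additive (GammaH (Theta (Δs p e) H.psi (s + k))) →+ O)))


/-! ### the named actions on `M¹_Q`, `M^χ_Q` of `Plug.tw` -/

section Named

variable (twP : A →+* Module.End O (bigLevel Sy 𝔪 H h (s + k)).M)
  (hD : ∀ t i, twP t * (bigLevel Sy 𝔪 H h (s + k)).D i =
        (bigLevel Sy 𝔪 H h (s + k)).D i * twP t)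

/-- the action induced by `twP` on `M¹_Q` of `Plug.tw` (`= TQCompat.tw1`) -/
def tw₁P : A →+* Module.End O (Plug.tw Sy 𝔪 H h s k c hc hc1).L1.M :=
  tw1 (bigLevel Sy 𝔪 H h (s + k)) twP hD (Nfun_pos hpF.out e (s + k)) ϖ c (hc_Nfun s k c hc) hc1

/-- the action induced by `twP` on `M^χ_Q` of `Plug.tw` (`= TQCompat.twChi`) -/
def twχP : A →+* Module.End O (Plug.tw Sy 𝔪 H h s k c hc hc1).Lχ.M :=
  twChi (bigLevel Sy 𝔪 H h (s + k)) twP hD (Nfun_pos hpF.out e (s + k)) ϖ c (hc_Nfun s k c hc) hc1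

theorem tw₁P_fmk (t : A) (x : (bigLevel Sy 𝔪 H h (s + k)).M) :
    tw₁P Sy 𝔪 H h s k c hc hc1 twP hD t
        (fmk (frD (bigLevel Sy 𝔪 H h (s + k))) (fun _ => (1 : O)) x) =
      fmk (frD (bigLevel Sy 𝔪 H h (s + k))) (fun _ => (1 : O)) (twP t x) := rfl

theorem twχP_fmk (t : A) (x : (bigLevel Sy 𝔪 H h (s + k)).M) :
    twχP Sy 𝔪 H h s k c hc hc1 twP hD t (fmk (frD (bigLevel Sy 𝔪 H h (s + k))) c x) =
      fmk (frD (bigLevel Sy 𝔪 H h (s + k))) c (twP t x) := rfl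

/-- (LOC) for the product action on `M¹_Q × M^χ_Q` from (LOC) at the big level -/
theorem locHyp_prod (hloc : LocHyp O θA twP) :
    LocHyp O θA (prodTw O (tw₁P Sy 𝔪 H h s k c hc hc1 twP hD)
      (twχP Sy 𝔪 H h s k c hc hc1 twP hD)) := by
  haveI := finite_bigLevel Sy 𝔪 H h (s + k)
  exact locHyp_big (bigLevel Sy 𝔪 H h (s + k)) twP hD (Nfun_pos hpF.out e (s + k)) ϖ c
    (hc_Nfun s k c hc) hc1 θA hloc

/-- **the `TWInput` fields at `Plug.tw`** over
`T_Q := TQ O θA (prodTw O tw₁P twχP)` (`= TQCompat.exists_fields_big`) -/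
theorem exists_fields :
    ∃ (a₁ : TQ O θA (prodTw O (tw₁P Sy 𝔪 H h s k c hc hc1 twP hD)
            (twχP Sy 𝔪 H h s k c hc hc1 twP hD)) →ₐ[O]
            Module.End O (Plug.tw Sy 𝔪 H h s k c hc hc1).L1.M)
      (a₂ : TQ O θA (prodTw O (tw₁P Sy 𝔪 H h s k c hc hc1 twP hD)
            (twχP Sy 𝔪 H h s k c hc hc1 twP hD)) →ₐ[O]
            Module.End O (Plug.tw Sy 𝔪 H h s k c hc hc1).Lχ.M),
      (∀ t, a₁ (chi O θA _ t) = tw₁P Sy 𝔪 H h s k c hc hc1 twP hD t) ∧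
      (∀ t, a₂ (chi O θA _ t) = twχP Sy 𝔪 H h s k c hc hc1 twP hD t) ∧
      (∀ t i, a₁ t * (Plug.tw Sy 𝔪 H h s k c hc hc1).L1.D i =
        (Plug.tw Sy 𝔪 H h s k c hc hc1).L1.D i * a₁ t) ∧
      (∀ t i, a₂ t * (Plug.tw Sy 𝔪 H h s k c hc hc1).Lχ.D i =
        (Plug.tw Sy 𝔪 H h s k c hc hc1).Lχ.D i * a₂ t) ∧
      (∀ t, a₁ t = 0 → a₂ t = 0 → t = 0) ∧
      (∀ (t : TQ O θA (prodTw O (tw₁P Sy 𝔪 H h s k c hc hc1 twP hD)
            (twχP Sy 𝔪 H h s k c hc hc1 twP hD)))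
          (x : (Plug.tw Sy 𝔪 H h s k c hc hc1).L1.M)
          (y : (Plug.tw Sy 𝔪 H h s k c hc hc1).Lχ.M),
        (Plug.tw Sy 𝔪 H h s k c hc hc1).U (Submodule.Quotient.mk x) =
            Submodule.Quotient.mk y →
          (Plug.tw Sy 𝔪 H h s k c hc hc1).U (Submodule.Quotient.mk (a₁ t x)) =
            Submodule.Quotient.mk (a₂ t y)) :=
  exists_fields_big (bigLevel Sy 𝔪 H h (s + k)) twP hD (Nfun_pos hpF.out e (s + k)) ϖ c
    (hc_Nfun s k c hc) hc1 θA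

end Named

/-! ### the composite -/

include hSS hG hev hgen in
/-- **the twisted Hecke action AT `Plug.tw`**: `twP` on the big level (ι-characterised, commuting
with all diamonds and symbols) with (LOC), and (LOC) for the induced product action
`prodTw O tw₁P twχP` on `M¹_Q × M^χ_Q`.  The `TWInput` fields over
`T_Q := TQ O θA (prodTw O tw₁P twχP)` are `exists_fields … twP hD`. -/
theorem exists_TQ_plug :
    ∃ (twP : A →+* Module.End O (bigLevel Sy 𝔪 H h (s + k)).M)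
      (hD : ∀ t i, twP t * (bigLevel Sy 𝔪 H h (s + k)).D i =
        (bigLevel Sy 𝔪 H h (s + k)).D i * twP t),
      (∀ (t : A) (m : (bigLevel Sy 𝔪 H h (s + k)).M),
        (bigReal Sy 𝔪 H h (s + k)).ι (twP t m) =
          ((tw t ⟨(bigReal Sy 𝔪 H h (s + k)).ι m,
              bigReal_mem_parabolicHoms Sy 𝔪 H h (s + k) hSS m⟩ :
            ↥(parabolicHoms O (GammaH (Theta (Δs p e) H.psi (s + k))) O)) :
            Additive (GammaH (Theta (Δs p e) H.psi (s + k))) →+ O)) ∧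
      (∀ t u, twP t * (bigLevel Sy 𝔪 H h (s + k)).act u =
        (bigLevel Sy 𝔪 H h (s + k)).act u * twP t) ∧
      LocHyp O θA twP ∧
      LocHyp O θA (prodTw O (tw₁P Sy 𝔪 H h s k c hc hc1 twP hD)
        (twχP Sy 𝔪 H h s k c hc hc1 twP hD)) := by
  have hgen' : ∀ g ∈ G, ∃ (d : Gamma0 N) (u : Sy.𝕋 O),
      ∀ v : ↥(parabolicHoms O (GammaH (Theta (Δs p e) H.psi (s + k))) O),
        ((tw g v : ↥(parabolicHoms O (GammaH (Theta (Δs p e) H.psi (s + k))) O)) :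
            Additive (GammaH (Theta (Δs p e) H.psi (s + k))) →+ O)
          = diaH (Theta (Δs p e) H.psi (s + k)) O d
              (actH Sy O (Theta (Δs p e) H.psi (s + k)) u
                (v : Additive (GammaH (Theta (Δs p e) H.psi (s + k))) →+ O)) := by
    intro g hg
    obtain ⟨d, u, -, hv⟩ := hgen g hg
    exact ⟨d, u, hv⟩
  obtain ⟨twP, hι, hD, hact⟩ := exists_twP Sy 𝔪 H h (s + k) hSS tw G hG hgen'
  have hloc : LocHyp O θA twP :=
    locHyp_twP Sy 𝔪 H h (s + k) hSS tw G hG ev hev θA hgen twP hι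
  exact ⟨twP, hD, hι, hact, hloc, locHyp_prod Sy 𝔪 H h s k c hc hc1 θA twP hD hloc⟩

end GB.B4.Datum.PlugTwisted

end

end Fermat.Agent.GE8.P3B
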